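import Mathlib
import Fermat.Prelude.Def_AlgebraicCurve_DivisorClassGroup

/-!
# Dictionary: places of `F/K` containing a Dedekind domain `B` with fraction field `F`
  correspond to height-one primes of `B`.
-/

set_option autoImplicit false

noncomputable section

open IsDedekindDomain WithZero IsLocalRing

namespace Fermat.Agent.S24

open AlgebraicCurve

section Dict

variable {K F : Type*} [Field K] [Field F] [Algebra K F]
variable {B : Type*} [CommRing B] [IsDedekindDomain B] [Algebra B F] [IsFractionRing B F]

/-- If the valuation ring of the place `v` is the valuation ring of `w`, then `v.ord` is the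
`w`-adic valuation. -/
theorem ord_eq_of_valuationSubring_eq (v : Place K F) (w : HeightOneSpectrum B)
    (hv : v.toValuationSubring = (w.valuation F).valuationSubring) {f : F} (hf : f ≠ 0) :
    v.ord f = -(WithZero.log (w.valuation F f)) := by
  have hmem : ∀ x : F, x ∈ v.toValuationSubring ↔ w.valuation F x ≤ 1 := fun x => by
    rw [hv, Valuation.mem_valuationSubring_iff]
  obtain ⟨π, hπ⟩ := w.valuation_exists_uniformizer F
  have hπ0 : π ≠ 0 := by
    rintro rfl
    rw [map_zero] at hπ
    exact exp_ne_zero hπ.symm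
  have hπw : w.valuation F π < 1 := by
    rw [hπ]; exact (exp_lt_exp.mpr (by norm_num : (-1 : ℤ) < 0)).trans_eq exp_zero
  have hπmem : π ∈ v.toValuationSubring := (hmem π).mpr hπw.le
  set n : ℤ := -(WithZero.log (w.valuation F f)) with hn
  have hwf : w.valuation F f = exp (-n) := by
    rw [hn, neg_neg, exp_log ((Valuation.ne_zero_iff _).mpr hf)]
  set u : F := f * (π ^ n)⁻¹ with hu
  have hwu : w.valuation F u = 1 := by
    rw [hu, map_mul, map_inv₀, map_zpow₀, hπ, hwf, ← exp_zsmul, smul_eq_mul, mul_neg, mul_one]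
    exact mul_inv_cancel₀ (by simp)
  have hu0 : u ≠ 0 := by
    intro h
    rw [h, map_zero] at hwu
    exact zero_ne_one hwu
  have humem : u ∈ v.toValuationSubring := (hmem u).mpr hwu.le
  have huinv : u⁻¹ ∈ v.toValuationSubring := by
    rw [hmem, map_inv₀, hwu, inv_one]
  have hfu : f = u * π ^ n := by
    rw [hu, mul_assoc, inv_mul_cancel₀ (zpow_ne_zero n hπ0), mul_one]
  let U : v.toValuationSubringˣ :=
    ⟨⟨u, humem⟩, ⟨u⁻¹, huinv⟩, Subtype.ext (mul_inv_cancel₀ hu0), Subtype.ext (inv_mul_cancel₀ hu0)⟩
  have hirr : Irreducible (⟨π, hπmem⟩ : v.toValuationSubring) := by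
    obtain ⟨ϖ, hϖ⟩ := IsDiscreteValuationRing.exists_irreducible v.toValuationSubring
    have hϖ0 : (ϖ : F) ≠ 0 := by
      simpa [ne_eq, ZeroMemClass.coe_eq_zero] using hϖ.ne_zero
    have hϖw : w.valuation F (ϖ : F) < 1 := by
      by_contra hcon
      have h1 : w.valuation F (ϖ : F) = 1 := le_antisymm ((hmem _).mp ϖ.2) (not_lt.mp hcon)
      have hinv : (ϖ : F)⁻¹ ∈ v.toValuationSubring := by
        rw [hmem, map_inv₀, h1, inv_one]
      have : IsUnit ϖ := by
        refine ⟨⟨ϖ, ⟨_, hinv⟩, Subtype.ext (mul_inv_cancel₀ hϖ0), Subtype.ext (inv_mul_cancel₀ hϖ0)⟩,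
          rfl⟩
      exact hϖ.not_isUnit this
    have hle : w.valuation F (ϖ : F) ≤ w.valuation F π := by
      rw [hπ]
      have hne : w.valuation F (ϖ : F) ≠ 0 := (Valuation.ne_zero_iff _).mpr hϖ0
      rw [← exp_log hne] at hϖw ⊢
      rw [← exp_zero, exp_lt_exp] at hϖw
      rw [exp_le_exp]
      omega
    have hdiv : (ϖ : F) * π⁻¹ ∈ v.toValuationSubring := by
      rw [hmem, map_mul, map_inv₀]
      exact mul_inv_le_one_of_le₀ hle zero_le
    have hπnu : ¬ IsUnit (⟨π, hπmem⟩ : v.toValuationSubring) := by
      rintro ⟨a, ha⟩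
      have h1 : w.valuation F ((a⁻¹ : v.toValuationSubringˣ) : v.toValuationSubring) ≤ 1 :=
        (hmem _).mp ((a⁻¹ : v.toValuationSubringˣ) : v.toValuationSubring).2
      have h2 : (((a⁻¹ : v.toValuationSubringˣ) : v.toValuationSubring) : F) * π = 1 := by
        have := congrArg (Subtype.val) (a.inv_mul)
        rw [ha] at this
        simpa using this
      have h3 := congrArg (w.valuation F) h2
      rw [map_mul, map_one] at h3
      have : w.valuation F π = 1 := by
        apply le_antisymm hπw.le
        calc (1 : ℤᵐ⁰) = _ * w.valuation F π := h3.symm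
          _ ≤ 1 * w.valuation F π := by gcongr
          _ = w.valuation F π := one_mul _
      exact hπw.ne this
    have hprod : ϖ = ⟨(ϖ : F) * π⁻¹, hdiv⟩ * ⟨π, hπmem⟩ := by
      ext
      simp [mul_assoc, inv_mul_cancel₀ hπ0]
    have hunit : IsUnit (⟨(ϖ : F) * π⁻¹, hdiv⟩ : v.toValuationSubring) :=
      (hϖ.isUnit_or_isUnit hprod).resolve_right hπnu
    have hassoc : Associated ϖ (⟨π, hπmem⟩ : v.toValuationSubring) := by
      obtain ⟨c, hc⟩ := hunit
      refine ⟨c⁻¹, ?_⟩
      rw [Units.mul_inv_eq_iff_eq_mul, hc, mul_comm]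
      exact hprod
    exact hassoc.irreducible hϖ
  have key := v.ord_unit_smul_zpow U hirr n
  rw [hfu]
  exact key

theorem ord_ofHeightOneSpectrum [Algebra K B] [IsScalarTower K B F] (w : HeightOneSpectrum B)
    {f : F} (hf : f ≠ 0) :
    (Place.ofHeightOneSpectrum (K := K) (F := F) w).ord f = -(WithZero.log (w.valuation F f)) :=
  ord_eq_of_valuationSubring_eq _ w rfl hf

/-- A place whose valuation ring contains `B` comes from a height one prime of `B`. -/
theorem exists_heightOneSpectrum_of_le (v : Place K F)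
    (hB : ∀ b : B, algebraMap B F b ∈ v.toValuationSubring) :
    ∃ w : HeightOneSpectrum B, v.toValuationSubring = (w.valuation F).valuationSubring := by
  let φ : B →+* v.toValuationSubring :=
    (algebraMap B F).codRestrict v.toValuationSubring.toSubring hB
  have hφ : ∀ b, ((φ b : v.toValuationSubring) : F) = algebraMap B F b := fun b => rfl
  let P : Ideal B := (IsLocalRing.maximalIdeal v.toValuationSubring).comap φ
  have hPprime : P.IsPrime := Ideal.comap_isPrime φ _
  have hPne : P ≠ ⊥ := by
    intro hbot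
    -- every nonzero b is a unit of O_v, so O_v = ⊤
    apply v.ne_top'
    rw [eq_top_iff]
    intro x _
    obtain ⟨a, s, hs, rfl⟩ := IsFractionRing.div_surjective (A := B) x
    have hs0 : s ≠ 0 := nonZeroDivisors.ne_zero hs
    have hsP : s ∉ P := by
      rw [hbot, Ideal.mem_bot]; exact hs0
    have hsu : IsUnit (φ s) := by
      by_contra hnu
      exact hsP ((IsLocalRing.mem_maximalIdeal _).mpr hnu)
    obtain ⟨c, hc⟩ := hsu
    have h1 : ((c : v.toValuationSubring) : F) = algebraMap B F s := by rw [hc, hφ]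
    have h2 : ((c : v.toValuationSubring) : F)
        * (((c⁻¹ : v.toValuationSubringˣ) : v.toValuationSubring) : F) = 1 := by
      have := congrArg Subtype.val c.mul_inv
      exact this
    have hinv : (algebraMap B F s)⁻¹ = ((c⁻¹ : v.toValuationSubringˣ) : v.toValuationSubring) := by
      rw [← h1]
      exact inv_eq_of_mul_eq_one_right h2
    rw [div_eq_mul_inv, hinv]
    exact v.toValuationSubring.mul_mem _ _ (hB a) (Subtype.mem _)
  let w : HeightOneSpectrum B := ⟨P, hPprime, hPne⟩
  refine ⟨w, ?_⟩
  have hle : (w.valuation F).valuationSubring ≤ v.toValuationSubring := by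
    intro x hx
    rw [Valuation.mem_valuationSubring_iff] at hx
    obtain ⟨n, d, hnd⟩ := w.exists_primeCompl_mul_eq_of_integer x hx
    have hdP : (d : B) ∉ P := d.2
    have hdu : IsUnit (φ d) := by
      by_contra hnu
      exact hdP ((IsLocalRing.mem_maximalIdeal _).mpr hnu)
    obtain ⟨c, hc⟩ := hdu
    have h1 : ((c : v.toValuationSubring) : F) = algebraMap B F d := by rw [hc, hφ]
    have h2 : ((c : v.toValuationSubring) : F)
        * (((c⁻¹ : v.toValuationSubringˣ) : v.toValuationSubring) : F) = 1 := by
      have := congrArg Subtype.val c.mul_inv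
      exact this
    have hx' : x = algebraMap B F n * (((c⁻¹ : v.toValuationSubringˣ) : v.toValuationSubring) : F) := by
      rw [← hnd, ← h1, mul_assoc, h2, mul_one]
    rw [hx']
    exact v.toValuationSubring.mul_mem _ _ (hB n) (Subtype.mem _)
  have hK : Ring.KrullDimLE 1 (w.valuation F).valuationSubring := by
    rw [← HeightOneSpectrum.valuationSubringAtPrime_eq_valuationSubring]
    infer_instance
  exact (ValuationSubring.eq_of_le_of_ne_top _ hle v.ne_top').symm

end Dict

end Fermat.Agent.S24
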